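import Fermat.Agent.QuaternionTrace.Kernel
import Fermat.Agent.QuaternionCurve.Genus

/-!
# The classes of elements of norm `n` under the units

An element of norm `n` is `±1` (scaled), which needs `n` to be a square, or elliptic or hyperbolic.
The elliptic ones fall in finitely many classes and each gives `η ^ m / (1 - η)` over the order of
its centraliser; the hyperbolic ones give nothing.
-/

set_option autoImplicit false
set_option linter.unusedSectionVars false
set_option linter.style.haveILetI false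

noncomputable section

open MeasureTheory Set Filter Topology Complex
open UpperHalfPlane hiding I
open FA.CocompactForms FA.CocompactFunctions FA.CocompactDegree FA.CocompactGaussBonnet
open FA.CocompactTrace FA.QuaternionHecke
open scoped MatrixGroups Manifold Real

namespace FA.QuaternionTrace

theorem trichotomy {n : ℕ} [NeZero n] {g : SL(2, ℝ)} (hg : g ∈ normSet n) :
    (g = 1 ∨ g = -1) ∨ (g 0 0 + g 1 1) ^ 2 < 4 ∨ 4 < (g 0 0 + g 1 1) ^ 2 := by
  rcases lt_trichotomy ((g 0 0 + g 1 1) ^ 2) 4 with h | h | h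
  · exact .inr (.inl h)
  · left
    set s := Real.sqrt n
    have hs : s ≠ 0 := (Real.sqrt_pos.2 (Nat.cast_pos.2 (NeZero.pos n))).ne'
    set X := s • (g : Matrix (Fin 2) (Fin 2) ℝ) with hX
    have hXo : X ∈ order := hg
    obtain ⟨N, hN⟩ := exists_trace hXo
    rw [hX, Matrix.trace_fin_two] at hN
    simp only [Matrix.smul_apply, smul_eq_mul] at hN
    have hY : X + X - (N : ℝ) • (1 : Matrix (Fin 2) (Fin 2) ℝ) ∈ order :=
      sub_mem (add_mem hXo hXo) (intCast_smul_mem (one_mem order) N)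
    have hdet := det_entries g
    have h0 := eq_zero_of_det hY (by
      rw [hX, Matrix.det_fin_two]
      simp only [Matrix.sub_apply, Matrix.add_apply, Matrix.smul_apply, smul_eq_mul,
        Matrix.one_apply_eq, Matrix.one_apply_ne (show (0 : Fin 2) ≠ 1 by decide),
        Matrix.one_apply_ne (show (1 : Fin 2) ≠ 0 by decide)]
      rw [← hN]
      linear_combination (4 * s ^ 2) * hdet - s ^ 2 * h)
    have e00 := congrFun (congrFun h0 0) 0
    have e01 := congrFun (congrFun h0 0) 1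
    have e10 := congrFun (congrFun h0 1) 0
    have e11 := congrFun (congrFun h0 1) 1
    simp [hX, ← hN] at e00 e01 e10 e11
    have h01 : g 0 1 = 0 := e01.resolve_left hs
    have h10 : g 1 0 = 0 := e10.resolve_left hs
    have had : g 0 0 = g 1 1 := by
      refine mul_left_cancel₀ hs ?_
      linarith
    rw [h01, zero_mul, sub_zero, ← had] at hdet
    rcases mul_self_eq_one_iff.1 hdet with h1 | h1
    · exact .inl (sl_ext (by simpa using h1) (by simpa using h01) (by simpa using h10)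
        (by simpa [← had] using h1))
    · exact .inr (sl_ext (by simpa using h1) (by simpa using h01) (by simpa using h10)
        (by simpa [← had] using h1))
  · exact .inr (.inr h)

theorem scalar_mem_iff {n : ℕ} {g : SL(2, ℝ)} (hg : g = 1 ∨ g = -1) :
    g ∈ normSet n ↔ IsSquare n := by
  have h1 : g ∈ normSet n ↔ (1 : SL(2, ℝ)) ∈ normSet n := by
    rcases hg with rfl | rfl
    · rfl
    · show Real.sqrt n • ((-1 : SL(2, ℝ)) : Matrix (Fin 2) (Fin 2) ℝ) ∈ order ↔ _
      rw [Matrix.SpecialLinearGroup.coe_neg, smul_neg, neg_mem_iff]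
      rfl
  rw [h1]
  constructor
  · intro h
    obtain ⟨N, hN⟩ := exists_trace (show Real.sqrt n •
      ((1 : SL(2, ℝ)) : Matrix (Fin 2) (Fin 2) ℝ) ∈ order from h)
    simp at hN
    have hN2 : N ^ 2 = 4 * (n : ℤ) := by
      have hsq := Real.sq_sqrt (Nat.cast_nonneg (α := ℝ) n)
      exact_mod_cast (show (N : ℝ) ^ 2 = 4 * (n : ℝ) by rw [← hN, mul_pow, hsq]; ring)
    obtain ⟨a, rfl⟩ : (2 : ℤ) ∣ N := Int.prime_two.dvd_of_dvd_pow (n := 2) ⟨2 * n, by linarith⟩
    exact ⟨a.natAbs, Int.natCast_inj.1 (by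
      push_cast
      rw [abs_mul_abs_self]
      linarith)⟩
  · rintro ⟨r, rfl⟩
    show Real.sqrt ((r * r : ℕ) : ℝ) • ((1 : SL(2, ℝ)) : Matrix (Fin 2) (Fin 2) ℝ) ∈ order
    rw [Nat.cast_mul, Real.sqrt_mul_self (Nat.cast_nonneg r), Matrix.SpecialLinearGroup.coe_one]
    exact_mod_cast intCast_smul_mem (one_mem order) (r : ℤ)

/-- The units commuting with `g`. -/
def centralUnits (g : SL(2, ℝ)) : Subgroup orderUnits :=
  (Subgroup.centralizer {g}).subgroupOf orderUnits

theorem mem_centralUnits {g : SL(2, ℝ)} {γ : orderUnits} :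
    γ ∈ centralUnits g ↔ g * (γ : SL(2, ℝ)) = (γ : SL(2, ℝ)) * g := by
  rw [centralUnits, Subgroup.mem_subgroupOf, Subgroup.mem_centralizer_iff]
  simp

theorem trace_conj (d g : SL(2, ℝ)) :
    (d * g * d⁻¹) 0 0 + (d * g * d⁻¹) 1 1 = g 0 0 + g 1 1 := by
  have h := Matrix.trace_mul_cycle (d : Matrix (Fin 2) (Fin 2) ℝ) g
    ((d⁻¹ : SL(2, ℝ)) : Matrix (Fin 2) (Fin 2) ℝ)
  rw [← Matrix.SpecialLinearGroup.coe_mul, ← Matrix.SpecialLinearGroup.coe_mul,
    ← Matrix.SpecialLinearGroup.coe_mul, ← Matrix.SpecialLinearGroup.coe_mul, inv_mul_cancel,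
    one_mul, Matrix.trace_fin_two, Matrix.trace_fin_two] at h
  exact h

/-- The elliptic elements of norm `n`. -/
def ellSet (n : ℕ) : Set SL(2, ℝ) := {g | g ∈ normSet n ∧ (g 0 0 + g 1 1) ^ 2 < 4}

/-- The hyperbolic elements of norm `n`. -/
def hypElems (n : ℕ) : Set SL(2, ℝ) := {g | g ∈ normSet n ∧ 4 < (g 0 0 + g 1 1) ^ 2}

/-- The scalars of norm `n`. -/
def scalarSet (n : ℕ) : Set SL(2, ℝ) := {g | g ∈ normSet n ∧ (g = 1 ∨ g = -1)}

theorem conj_mem_normSet {n : ℕ} {g : SL(2, ℝ)} (hg : g ∈ normSet n) (γ : orderUnits) :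
    (γ : SL(2, ℝ)) * g * (γ : SL(2, ℝ))⁻¹ ∈ normSet n :=
  mul_units_mem (units_mul_mem γ.2 hg) (orderUnits.inv_mem γ.2)

theorem conj_mem_ellSet {n : ℕ} {g : SL(2, ℝ)} (hg : g ∈ ellSet n) (γ : orderUnits) :
    (γ : SL(2, ℝ)) * g * (γ : SL(2, ℝ))⁻¹ ∈ ellSet n :=
  ⟨conj_mem_normSet hg.1 γ, by rw [trace_conj]; exact hg.2⟩

theorem conj_mem_hypElems {n : ℕ} {g : SL(2, ℝ)} (hg : g ∈ hypElems n) (γ : orderUnits) :
    (γ : SL(2, ℝ)) * g * (γ : SL(2, ℝ))⁻¹ ∈ hypElems n :=
  ⟨conj_mem_normSet hg.1 γ, by rw [trace_conj]; exact hg.2⟩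

/-- Conjugation by units. -/
def conjSetoid (A : Set SL(2, ℝ)) : Setoid A where
  r g h := ∃ γ : orderUnits, (γ : SL(2, ℝ)) * g * (γ : SL(2, ℝ))⁻¹ = h
  iseqv :=
    { refl := fun g => ⟨1, by simp⟩
      symm := fun {g h} ⟨γ, hγ⟩ => ⟨γ⁻¹, by rw [← hγ, Subgroup.coe_inv]; group⟩
      trans := fun {g h l} ⟨γ, hγ⟩ ⟨δ, hδ⟩ => ⟨δ * γ, by
        rw [← hδ, ← hγ, Subgroup.coe_mul]; group⟩ }

theorem conj_out_injective (g : SL(2, ℝ)) :
    Function.Injective fun δ : orderUnits ⧸ centralUnits g =>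
      (δ.out : SL(2, ℝ)) * g * (δ.out : SL(2, ℝ))⁻¹ := fun a b hab => by
  have h' : (a.out : SL(2, ℝ)) * g * (a.out : SL(2, ℝ))⁻¹ =
      (b.out : SL(2, ℝ)) * g * (b.out : SL(2, ℝ))⁻¹ := hab
  rw [← QuotientGroup.out_eq' a, ← QuotientGroup.out_eq' b, QuotientGroup.eq, mem_centralUnits,
    Subgroup.coe_mul, Subgroup.coe_inv]
  generalize (a.out : SL(2, ℝ)) = u at h'
  generalize (b.out : SL(2, ℝ)) = v at h'
  calc g * (u⁻¹ * v) = u⁻¹ * (u * g * u⁻¹) * v := by group
    _ = u⁻¹ * (v * g * v⁻¹) * v := by rw [h']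
    _ = u⁻¹ * v * g := by group

variable {ψ : ℂ → ℝ} {G : Finset orderUnits} {k : ℕ}

theorem summable_conj (h : IsPartition orderUnits ψ G) (hk : 3 ≤ k) {n : ℕ} [NeZero n]
    {g : SL(2, ℝ)} (hg : g ∈ normSet n) :
    Summable fun δ : orderUnits ⧸ centralUnits g => ∫ z : ℍ,
      ‖ψ z • qFun ((δ.out : SL(2, ℝ)) * g * (δ.out : SL(2, ℝ))⁻¹) z ^ k‖ :=
  (summable_norm_normSet h hk n).comp_injective
    (i := fun δ : orderUnits ⧸ centralUnits g => (⟨_, conj_mem_normSet hg δ.out⟩ : normSet n))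
    fun _ _ hab => conj_out_injective g (congrArg Subtype.val hab)

/-- **Regrouping by classes.** -/
theorem tsum_classes (h : IsPartition orderUnits ψ G) (hk : 3 ≤ k) {n : ℕ} [NeZero n]
    {A : Set SL(2, ℝ)} (hA : A ⊆ normSet n)
    (hinv : ∀ g ∈ A, ∀ γ : orderUnits, (γ : SL(2, ℝ)) * g * (γ : SL(2, ℝ))⁻¹ ∈ A) :
    ∑' g : A, orbAt ψ k (g : SL(2, ℝ)) =
      ∑' x : Quotient (conjSetoid A), ∑' δ : orderUnits ⧸ centralUnits (x.out : SL(2, ℝ)),
        orbAt ψ k ((δ.out : SL(2, ℝ)) * (x.out : SL(2, ℝ)) * (δ.out : SL(2, ℝ))⁻¹) := by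
  let f : (Σ x : Quotient (conjSetoid A), orderUnits ⧸ centralUnits (x.out : SL(2, ℝ))) → A :=
    fun a => ⟨_, hinv _ a.1.out.2 a.2.out⟩
  have hf : Function.Bijective f := by
    refine ⟨fun a b hab => ?_, fun g => ?_⟩
    · obtain ⟨x, d⟩ := a
      obtain ⟨y, e⟩ := b
      obtain rfl : x = y := by
        rw [← Quotient.out_eq x, ← Quotient.out_eq y]
        have h1 : (Quotient.mk (conjSetoid A) x.out : Quotient (conjSetoid A)) =
            Quotient.mk (conjSetoid A) (f ⟨x, d⟩) := Quotient.sound (s := conjSetoid A) ⟨d.out, rfl⟩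
        have h2 : (Quotient.mk (conjSetoid A) y.out : Quotient (conjSetoid A)) =
            Quotient.mk (conjSetoid A) (f ⟨y, e⟩) := Quotient.sound (s := conjSetoid A) ⟨e.out, rfl⟩
        exact h1.trans ((congrArg _ hab).trans h2.symm)
      obtain rfl : d = e := conj_out_injective _ (congrArg Subtype.val hab)
      rfl
    · set x : Quotient (conjSetoid A) := Quotient.mk'' g
      obtain ⟨γ, hγ⟩ : (conjSetoid A) x.out g := Quotient.mk_out (s := conjSetoid A) g
      obtain ⟨z, hz⟩ := QuotientGroup.mk_out_eq_mul (centralUnits (x.out : SL(2, ℝ))) γ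
      refine ⟨⟨x, QuotientGroup.mk γ⟩, Subtype.ext ?_⟩
      show ((QuotientGroup.mk γ : orderUnits ⧸ centralUnits (x.out : SL(2, ℝ))).out : SL(2, ℝ)) *
        _ * _⁻¹ = _
      have hzc := mem_centralUnits.1 z.2
      rw [hz, ← hγ, Subgroup.coe_mul]
      generalize (γ : SL(2, ℝ)) = u
      generalize ((z : orderUnits) : SL(2, ℝ)) = v at hzc
      generalize ((x.out : A) : SL(2, ℝ)) = w at hzc
      calc u * v * w * (u * v)⁻¹ = u * (v * w) * v⁻¹ * u⁻¹ := by group
        _ = u * (w * v) * v⁻¹ * u⁻¹ := by rw [hzc]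
        _ = u * w * u⁻¹ := by group
  have hs : Summable fun a => orbAt ψ k (f a : SL(2, ℝ)) :=
    (summable_normSet h hk n).comp_injective
      (i := fun a => (⟨f a, hA (f a).2⟩ : normSet n))
      fun a b hab => hf.injective
        (Subtype.ext (congrArg (fun y : normSet n => (y : SL(2, ℝ))) hab))
  exact ((Equiv.ofBijective f hf).tsum_eq fun g : A => orbAt ψ k (g : SL(2, ℝ))).symm.trans
    hs.tsum_sigma

theorem etaOf_ne_one_of_trace {g : SL(2, ℝ)} {p : ℍ} (hp : g • p = p)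
    (h : (g 0 0 + g 1 1) ^ 2 < 4) : etaOf g p ≠ 1 := fun h1 => by
  rcases CocompactHurwitz.eq_one_or_neg_one.1 (smul_eq_of_etaOf_eq_one hp h1) with e | e <;>
    rw [e] at h <;> simp at h <;> norm_num at h

theorem finite_centralUnits {g : SL(2, ℝ)} {p : ℍ} (hp : g • p = p)
    (h : (g 0 0 + g 1 1) ^ 2 < 4) : Finite (centralUnits g) := by
  have hle : centralUnits g ≤ MulAction.stabilizer orderUnits p := fun ζ hζ => by
    show (ζ : SL(2, ℝ)) • p = p
    by_contra hne
    refine etaOf_ne_one_of_trace hp h ?_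
    have hall := eq_of_fixed hp (w := (ζ : SL(2, ℝ)) • p) (by
      rw [← mul_smul, mem_centralUnits.1 hζ, mul_smul, hp]) fun e => hne e.symm
    rcases CocompactHurwitz.eq_one_or_neg_one.1 hall with e | e <;>
      rw [e] at h <;> simp at h <;> norm_num at h
  exact Finite.of_injective _ (Subgroup.inclusion_injective hle)

theorem exists_axis_central {g : SL(2, ℝ)} (h : 4 < (g 0 0 + g 1 1) ^ 2) :
    ∃ P : SL(2, ℝ), Axis (centralUnits g) P ∧ (P⁻¹ * g * P) 0 1 = 0 ∧
      (P⁻¹ * g * P) 1 0 = 0 ∧ (P⁻¹ * g * P) 0 0 ≠ (P⁻¹ * g * P) 1 1 := by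
  obtain ⟨P, h01, h10, hne⟩ := exists_diag h
  have key : ∀ ζ ∈ centralUnits g,
      (P⁻¹ * (ζ : SL(2, ℝ)) * P) 0 1 = 0 ∧ (P⁻¹ * (ζ : SL(2, ℝ)) * P) 1 0 = 0 := fun ζ hζ => by
    have hc := mem_centralUnits.1 hζ
    set D := P⁻¹ * g * P
    set M := P⁻¹ * (ζ : SL(2, ℝ)) * P
    have hDM : D * M = M * D := by
      calc D * M = P⁻¹ * (g * ζ) * P := by simp only [D, M]; group
        _ = P⁻¹ * ((ζ : SL(2, ℝ)) * g) * P := by rw [hc]
        _ = M * D := by simp only [D, M]; group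
    have e01 := congrArg (fun A : SL(2, ℝ) => A 0 1) hDM
    have e10 := congrArg (fun A : SL(2, ℝ) => A 1 0) hDM
    simp [Matrix.mul_apply, Fin.sum_univ_two, h01, h10] at e01 e10
    exact ⟨mul_right_cancel₀ (sub_ne_zero.2 hne) (show M 0 1 * (D 0 0 - D 1 1) = 0 * _ by
      linear_combination e01), mul_right_cancel₀ (sub_ne_zero.2 hne)
        (show M 1 0 * (D 0 0 - D 1 1) = 0 * _ by linear_combination -e10)⟩
  exact ⟨P, ⟨fun ζ hζ => (key ζ hζ).1, fun ζ hζ => (key ζ hζ).2⟩, h01, h10, hne⟩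

theorem tsum_hyp (h : IsPartition orderUnits ψ G) {m : ℕ} (hm : 1 ≤ m) (n : ℕ) [NeZero n] :
    ∑' g : hypElems n, orbAt ψ (2 * (m + 1)) (g : SL(2, ℝ)) = 0 := by
  rw [tsum_classes h (by omega) (fun g hg => hg.1) fun g hg => conj_mem_hypElems hg]
  refine (tsum_congr fun x => ?_).trans tsum_zero
  obtain ⟨P, hA, h01, h10, hne⟩ := exists_axis_central x.out.2.2
  exact tsum_conj_diag h hA h01 h10 hne (summable_conj h (by omega) x.out.2.1)

theorem finite_ellClasses (n : ℕ) [NeZero n] : Finite (Quotient (conjSetoid (ellSet n))) := by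
  have hC := isCompact_coreSet orderUnits
  have hfin : {g : ellSet n | ∃ z ∈ coreSet orderUnits,
      (g : SL(2, ℝ)) • z ∈ coreSet orderUnits}.Finite :=
    Set.Finite.of_finite_image ((finite_normSet_returns n hC hC).subset (by
      rintro _ ⟨g, hg, rfl⟩
      exact ⟨g.2.1, hg⟩)) Subtype.val_injective.injOn
  haveI := hfin.to_subtype
  refine Finite.of_surjective
    (fun g : {g : ellSet n | ∃ z ∈ coreSet orderUnits, (g : SL(2, ℝ)) • z ∈ coreSet orderUnits} =>
      (Quotient.mk'' g.1 : Quotient (conjSetoid (ellSet n)))) fun x => ?_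
  obtain ⟨g, rfl⟩ := Quotient.exists_rep x
  obtain ⟨p, hp⟩ := exists_fixed_of_trace_lt g.2.2
  obtain ⟨γ, hγ, hγp⟩ := exists_mem_coreSet orderUnits p
  refine ⟨⟨⟨_, conj_mem_ellSet g.2 ⟨γ, hγ⟩⟩, γ • p, hγp, ?_⟩,
    (Quotient.sound (s := conjSetoid (ellSet n)) ⟨⟨γ, hγ⟩, rfl⟩).symm⟩
  show (γ * (g : SL(2, ℝ)) * γ⁻¹) • γ • p ∈ _
  rw [mul_smul, mul_smul, inv_smul_smul, hp]
  exact hγp

instance fintypeEllClasses (n : ℕ) [NeZero n] : Fintype (Quotient (conjSetoid (ellSet n))) :=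
  haveI := finite_ellClasses n
  Fintype.ofFinite _

/-- The fixed point of an elliptic element. -/
def fixPt {n : ℕ} (g : ellSet n) : ℍ := (exists_fixed_of_trace_lt g.2.2).choose

theorem fixPt_spec {n : ℕ} (g : ellSet n) : (g : SL(2, ℝ)) • fixPt g = fixPt g :=
  (exists_fixed_of_trace_lt g.2.2).choose_spec

/-- The term of an elliptic class. -/
def ellTerm {n : ℕ} (m : ℕ) (g : ellSet n) : ℂ :=
  etaOf (g : SL(2, ℝ)) (fixPt g) ^ m / (1 - etaOf (g : SL(2, ℝ)) (fixPt g)) /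
    Nat.card (centralUnits (g : SL(2, ℝ)))

theorem tsum_ell (h : IsPartition orderUnits ψ G) {m : ℕ} (hm : 1 ≤ m) (n : ℕ) [NeZero n] :
    ∑' g : ellSet n, orbAt ψ (2 * (m + 1)) (g : SL(2, ℝ)) =
      4 * π / (2 * (m : ℂ) + 1) *
        ∑ x : Quotient (conjSetoid (ellSet n)), ellTerm (m + 1) x.out := by
  rw [tsum_classes h (by omega) (fun g hg => hg.1) fun g hg => conj_mem_ellSet hg, tsum_fintype,
    Finset.mul_sum]
  refine Finset.sum_congr rfl fun x _ => ?_
  have hp := fixPt_spec x.out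
  have htr := x.out.2.2
  haveI := finite_centralUnits hp htr
  have hinv : ∀ ζ : centralUnits (x.out : SL(2, ℝ)), ∀ z : ℍ,
      qFun (x.out : SL(2, ℝ)) (ζ • z) ^ 2 = qFun (x.out : SL(2, ℝ)) z ^ 2 := fun ζ z => by
    show qFun _ (((ζ : orderUnits) : SL(2, ℝ)) • z) ^ 2 = _
    rw [qFun_smul, mul_assoc, mem_centralUnits.1 ζ.2, inv_mul_cancel_left]
  have e := tsum_conj_rot h (centralUnits (x.out : SL(2, ℝ))) hp (etaOf_ne_one_of_trace hp htr)
    (m := m) hinv (summable_conj h (by omega) x.out.2.1)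
  rw [ellTerm, mul_div_assoc', ← e, mul_div_cancel_left₀]
  exact Nat.cast_ne_zero.2 Nat.card_pos.ne'

theorem tsum_scalar (h : IsPartition orderUnits ψ G) (m n : ℕ) :
    ∑' g : scalarSet n, orbAt ψ (2 * m) (g : SL(2, ℝ)) =
      if IsSquare n then (area orderUnits : ℂ) else 0 := by
  have hval : ∀ g : scalarSet n,
      orbAt ψ (2 * m) (g : SL(2, ℝ)) = ((∫ z : ℍ, ψ z : ℝ) : ℂ) := fun g => by
    rw [orbAt, ← integral_complex_ofReal]
    refine integral_congr_ae (.of_forall fun z => ?_)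
    simp only
    rw [pow_mul, qFun_triv (CocompactHurwitz.eq_one_or_neg_one.2 g.2.2), one_pow,
      Complex.real_smul, mul_one]
  rw [tsum_congr hval]
  split_ifs with hsq
  · have hset : scalarSet n = {1, -1} := Set.ext fun g =>
      ⟨fun hg => hg.2, fun hg => ⟨(scalar_mem_iff hg).2 hsq, hg⟩⟩
    rw [hset, tsum_fintype, Finset.sum_const, Finset.card_univ,
      ← Nat.card_eq_fintype_card, Nat.card_coe_set_eq,
      Set.ncard_pair CocompactHurwitz.one_ne_neg_one, area_eq orderUnits h,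
      QuaternionCurve.trivCard_orderUnits]
    push_cast
    simp
  · haveI : IsEmpty (scalarSet n) := ⟨fun g => hsq ((scalar_mem_iff g.2.2).1 g.2.1)⟩
    exact tsum_empty

/-- **The trace formula.** -/
theorem trace_hecke (n : ℕ+) {m : ℕ} (hm : 2 ≤ m) :
    haveI : NeZero (n : ℕ) := ⟨n.ne_zero⟩
    LinearMap.trace ℂ (forms orderUnits ((2 * m : ℕ) : ℤ)) (hecke ((2 * m : ℕ) : ℤ) n) =
      (if IsSquare (n : ℕ) then (2 * (m : ℂ) - 1) / 6 else 0) +
        ∑ x : Quotient (conjSetoid (ellSet (n : ℕ))), ellTerm m x.out := by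
  classical
  haveI : NeZero (n : ℕ) := ⟨n.ne_zero⟩
  obtain ⟨m, rfl⟩ : ∃ j, m = j + 1 := ⟨m - 1, by omega⟩
  obtain ⟨ψ, G, h⟩ := exists_partition orderUnits
  set N : Set SL(2, ℝ) := normSet n
  set f : SL(2, ℝ) → ℂ := orbAt ψ (2 * (m + 1))
  have hs : Summable (N.indicator f) :=
    summable_subtype_iff_indicator.1 (summable_normSet h (by omega) n)
  have hsplit : ∀ g, N.indicator f g = (scalarSet n).indicator f g + (ellSet n).indicator f g +
      (hypElems n).indicator f g := fun g => by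
    by_cases hg : g ∈ N
    · rcases trichotomy (n := (n : ℕ)) hg with h1 | h1 | h1
      · have e2 : g ∉ ellSet n := fun e => by
          rcases h1 with rfl | rfl <;> simp [ellSet] at e <;> norm_num at e
        have e3 : g ∉ hypElems n := fun e => by
          rcases h1 with rfl | rfl <;> simp [hypElems] at e <;> norm_num at e
        simp [hg, show g ∈ scalarSet n from ⟨hg, h1⟩, e2, e3]
      · have e1 : g ∉ scalarSet n := fun e => by
          rcases e.2 with rfl | rfl <;> simp at h1 <;> norm_num at h1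
        have e3 : g ∉ hypElems n := fun e => lt_asymm h1 e.2
        simp [hg, show g ∈ ellSet n from ⟨hg, h1⟩, e1, e3]
      · have e1 : g ∉ scalarSet n := fun e => by
          rcases e.2 with rfl | rfl <;> simp at h1 <;> norm_num at h1
        have e2 : g ∉ ellSet n := fun e => lt_asymm e.2 h1
        simp [hg, show g ∈ hypElems n from ⟨hg, h1⟩, e1, e2]
    · simp [hg, show g ∉ scalarSet n from fun e => hg e.1, show g ∉ ellSet n from fun e => hg e.1,
        show g ∉ hypElems n from fun e => hg e.1]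
  have hsub : ∀ A : Set SL(2, ℝ), A ⊆ N → Summable (A.indicator f) := fun A hA => by
    have := hs.indicator A
    rwa [Set.indicator_indicator, Set.inter_eq_left.2 hA] at this
  rw [trace_eq_tsum h (by omega) n]
  show _ * ∑' g : N, f g = _
  rw [tsum_subtype N f, tsum_congr hsplit,
    ((hsub (scalarSet n) fun g hg => hg.1).add (hsub (ellSet n) fun g hg => hg.1)).tsum_add
      (hsub (hypElems n) fun g hg => hg.1),
    (hsub (scalarSet n) fun g hg => hg.1).tsum_add (hsub (ellSet n) fun g hg => hg.1),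
    ← tsum_subtype, ← tsum_subtype, ← tsum_subtype, tsum_scalar h, tsum_ell h (by omega),
    tsum_hyp h (by omega), add_zero, mul_add]
  have h2 : (2 * (m : ℂ) + 1) ≠ 0 := by exact_mod_cast Nat.succ_ne_zero (2 * m)
  have hπ : (π : ℂ) ≠ 0 := ofReal_ne_zero.2 Real.pi_ne_zero
  congr 1
  · rw [QuaternionCurve.area_eq_dimension.1, mul_ite, mul_zero]
    refine if_congr Iff.rfl ?_ rfl
    push_cast
    field_simp
    ring
  · push_cast
    field_simp
    ring

/-- **Bounded uniformly in the weight.** -/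
theorem exists_bound (n : ℕ+) : ∃ B : ℝ, ∀ m : ℕ, 2 ≤ m →
    ‖LinearMap.trace ℂ (forms orderUnits ((2 * m : ℕ) : ℤ)) (hecke ((2 * m : ℕ) : ℤ) n) -
      if IsSquare (n : ℕ) then (2 * (m : ℂ) - 1) / 6 else 0‖ ≤ B := by
  haveI : NeZero (n : ℕ) := ⟨n.ne_zero⟩
  refine ⟨∑ x : Quotient (conjSetoid (ellSet (n : ℕ))),
    ‖(1 - etaOf (x.out : SL(2, ℝ)) (fixPt x.out))⁻¹ /
      (Nat.card (centralUnits (x.out : SL(2, ℝ))) : ℂ)‖, fun m hm => ?_⟩
  rw [trace_hecke n hm, add_sub_cancel_left]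
  refine (norm_sum_le _ _).trans (Finset.sum_le_sum fun x _ => le_of_eq ?_)
  rw [ellTerm, div_eq_mul_inv (_ ^ m), mul_div_assoc, norm_mul, norm_pow,
    norm_etaOf (fixPt_spec x.out), one_pow, one_mul]

end FA.QuaternionTrace

end
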