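import Fermat.Agent.VerticalSatoTate.Semicircle
import Mathlib.Analysis.SpecialFunctions.Trigonometric.Chebyshev.Basic

/-!
# The Plancherel measure of the tree of valency `p + 1`

`plMean p φ` is the mean of `φ` against the semicircle law times
`(p + 1) / ((√p + 1/√p) ^ 2 - t ^ 2)`; the Chebyshev polynomial of index `j` has mean
`p ^ (-j/2)` for even `j` and zero for odd `j`.
-/

set_option autoImplicit false
set_option linter.unusedSectionVars false
set_option linter.style.haveILetI false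

noncomputable section

open MeasureTheory Filter Topology Polynomial
open scoped Real
open FA.VerticalSatoTate

namespace FA.QuaternionTrace

/-- `(√p + 1/√p) ^ 2`. -/
def edgeSq (p : ℕ) : ℝ := (p : ℝ) + 2 + (p : ℝ)⁻¹

theorem edgeSq_eq {p : ℕ} (hp : 0 < p) : edgeSq p = (Real.sqrt p + (Real.sqrt p)⁻¹) ^ 2 := by
  have hs : Real.sqrt p ≠ 0 := (Real.sqrt_pos.2 (Nat.cast_pos.2 hp)).ne'
  have hsq := Real.sq_sqrt (Nat.cast_nonneg (α := ℝ) p)
  rw [edgeSq, add_sq, inv_pow, hsq, mul_assoc, mul_inv_cancel₀ hs, mul_one]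

/-- The density against the semicircle law. -/
def plDens (p : ℕ) (t : ℝ) : ℝ := ((p : ℝ) + 1) / (edgeSq p - t ^ 2)

/-- The mean for the Plancherel measure. -/
def plMean (p : ℕ) (φ : ℝ → ℝ) : ℝ := semiMean fun t => φ t * plDens p t

/-- The density, continued continuously. -/
def plAux (p : ℕ) (t : ℝ) : ℝ := ((p : ℝ) + 1) / max (edgeSq p - t ^ 2) (edgeSq p - 4)

/-- The Chebyshev polynomials of the half argument. -/
def chebyU (i : ℕ) (t : ℝ) : ℝ := (Polynomial.Chebyshev.U ℝ (i : ℤ)).eval (t / 2)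

theorem chebyU_zero (t : ℝ) : chebyU 0 t = 1 := by simp [chebyU]

theorem chebyU_one (t : ℝ) : chebyU 1 t = t := by
  simp [chebyU, Polynomial.Chebyshev.U_one]
  ring

theorem chebyU_add_two (i : ℕ) (t : ℝ) :
    chebyU (i + 2) t = t * chebyU (i + 1) t - chebyU i t := by
  simp only [chebyU, Nat.cast_add, Nat.cast_ofNat, Nat.cast_one, Polynomial.Chebyshev.U_add_two,
    eval_sub, eval_mul, eval_ofNat, eval_X]
  ring

@[fun_prop]
theorem continuous_chebyU (i : ℕ) : Continuous (chebyU i) := by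
  unfold chebyU
  fun_prop

theorem semiMean_add {φ χ : ℝ → ℝ} (hφ : Continuous φ) (hχ : Continuous χ) :
    semiMean (fun t => φ t + χ t) = semiMean φ + semiMean χ := by
  simp only [semiMean, add_mul]
  rw [intervalIntegral.integral_add (intervalIntegrable_semi hφ) (intervalIntegrable_semi hχ),
    mul_add]

theorem semiMean_const_mul (a : ℝ) (φ : ℝ → ℝ) :
    semiMean (fun t => a * φ t) = a * semiMean φ := by
  simp only [semiMean, mul_assoc, intervalIntegral.integral_const_mul]
  ring

theorem semiMean_congr {φ χ : ℝ → ℝ} (h : ∀ t ∈ Set.Icc (-2 : ℝ) 2, φ t = χ t) :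
    semiMean φ = semiMean χ := by
  simp only [semiMean]
  congr 1
  refine intervalIntegral.integral_congr fun t ht => ?_
  rw [Set.uIcc_of_le (by norm_num : (-2 : ℝ) ≤ 2)] at ht
  simp only [h t ht]

theorem semiMean_chebyU (i : ℕ) : semiMean (chebyU i) = if i = 0 then 1 else 0 := by
  rw [semiMean_eq_angle (continuous_chebyU i), ← moment_zero, moment]
  congr 1
  refine intervalIntegral.integral_congr fun θ _ => ?_
  have h := Polynomial.Chebyshev.U_real_cos (θ := θ) (i : ℤ)
  simp only [chebyU, mul_div_cancel_left₀ _ (two_ne_zero' ℝ), pow_zero, one_mul]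
  rw [h]
  push_cast
  ring

variable {p : ℕ} (hp : 2 ≤ p)
include hp

theorem edgeSq_sub_pos : 0 < edgeSq p - 4 := by
  have h2 : (2 : ℝ) ≤ p := by exact_mod_cast hp
  have : (0 : ℝ) < (p : ℝ)⁻¹ := by positivity
  rw [edgeSq]
  linarith

@[fun_prop]
theorem continuous_plAux : Continuous (plAux p) :=
  Continuous.div continuous_const (by fun_prop) fun _ =>
    ne_of_gt (lt_max_of_lt_right (edgeSq_sub_pos hp))

theorem plAux_pos (t : ℝ) : 0 < plAux p t :=
  div_pos (by positivity) (lt_max_of_lt_right (edgeSq_sub_pos hp))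

theorem plAux_le (t : ℝ) : plAux p t ≤ ((p : ℝ) + 1) / (edgeSq p - 4) :=
  div_le_div_of_nonneg_left (by positivity) (edgeSq_sub_pos hp) (le_max_right _ _)

theorem plMean_eq (φ : ℝ → ℝ) : plMean p φ = semiMean fun t => φ t * plAux p t :=
  semiMean_congr fun t ht => by
    rw [plDens, plAux, max_eq_left]
    nlinarith [ht.1, ht.2]

theorem plMean_add {φ χ : ℝ → ℝ} (hφ : Continuous φ) (hχ : Continuous χ) :
    plMean p (fun t => φ t + χ t) = plMean p φ + plMean p χ := by
  rw [plMean_eq hp, plMean_eq hp, plMean_eq hp]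
  simp only [add_mul]
  exact semiMean_add (hφ.mul (continuous_plAux hp)) (hχ.mul (continuous_plAux hp))

theorem plMean_const_mul (a : ℝ) (φ : ℝ → ℝ) :
    plMean p (fun t => a * φ t) = a * plMean p φ := by
  simp only [plMean, mul_assoc]
  exact semiMean_const_mul a _

theorem plMean_mono {φ χ : ℝ → ℝ} (hφ : Continuous φ) (hχ : Continuous χ)
    (h : ∀ t ∈ Set.Icc (-2 : ℝ) 2, φ t ≤ χ t) : plMean p φ ≤ plMean p χ := by
  rw [plMean_eq hp, plMean_eq hp]
  exact semiMean_mono (hφ.mul (continuous_plAux hp)) (hχ.mul (continuous_plAux hp))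
    fun t ht => mul_le_mul_of_nonneg_right (h t ht) (plAux_pos hp t).le

/-- The defining recursion. -/
theorem plMean_weight (i : ℕ) :
    plMean p (fun t => (edgeSq p - t ^ 2) * chebyU i t) = if i = 0 then (p : ℝ) + 1 else 0 := by
  have h := semiMean_const_mul ((p : ℝ) + 1) (chebyU i)
  rw [semiMean_chebyU, mul_ite, mul_one, mul_zero] at h
  rw [← h, plMean]
  refine semiMean_congr fun t ht => ?_
  have hne : edgeSq p - t ^ 2 ≠ 0 := by nlinarith [ht.1, ht.2, edgeSq_sub_pos hp]
  rw [plDens]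
  field_simp

theorem abs_plMean_chebyU_le (i : ℕ) :
    |plMean p (chebyU i)| ≤ 2 * (((p : ℝ) + 1) / (edgeSq p - 4)) := by
  set W := ((p : ℝ) + 1) / (edgeSq p - 4)
  rw [plMean_eq hp, semiMean_eq_angle (by fun_prop), abs_mul,
    abs_of_pos (by positivity : (0 : ℝ) < 2 / π)]
  have hW : ∀ θ ∈ Set.uIoc 0 π,
      ‖chebyU i (2 * Real.cos θ) * plAux p (2 * Real.cos θ) * Real.sin θ * Real.sin θ‖ ≤ W := by
    intro θ _
    have hU := Polynomial.Chebyshev.U_real_cos (θ := θ) (i : ℤ)
    have e : chebyU i (2 * Real.cos θ) * plAux p (2 * Real.cos θ) * Real.sin θ * Real.sin θ =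
        Real.sin (((i : ℤ) + 1) * θ) * (plAux p (2 * Real.cos θ) * Real.sin θ) := by
      rw [← hU, chebyU, mul_div_cancel_left₀ _ (two_ne_zero' ℝ)]
      ring
    rw [e, norm_mul, norm_mul, Real.norm_eq_abs, Real.norm_eq_abs, Real.norm_eq_abs,
      abs_of_pos (plAux_pos hp _)]
    calc _ ≤ (1 : ℝ) * (W * 1) := mul_le_mul (Real.abs_sin_le_one _)
          (mul_le_mul (plAux_le hp _) (Real.abs_sin_le_one _) (abs_nonneg _)
            (div_nonneg (by positivity) (edgeSq_sub_pos hp).le))
          (mul_nonneg (plAux_pos hp _).le (abs_nonneg _)) zero_le_one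
      _ = W := by ring
  have hb := intervalIntegral.norm_integral_le_of_norm_le_const hW
  rw [Real.norm_eq_abs, sub_zero, abs_of_pos Real.pi_pos] at hb
  refine (mul_le_mul_of_nonneg_left hb (by positivity)).trans (le_of_eq ?_)
  field_simp

omit hp in
/-- A bounded solution of the recursion vanishes. -/
theorem eq_zero_of_growth {r : ℝ} (hr : 2 ≤ r) {e : ℕ → ℝ} {C : ℝ} (h1 : r * |e 0| ≤ |e 1|)
    (hrec : ∀ j, e (j + 2) = (r + r⁻¹) * e (j + 1) - e j) (hb : ∀ j, |e j| ≤ C) : e 0 = 0 := by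
  have hstep : ∀ j, r * |e j| ≤ |e (j + 1)| := fun j => by
    induction j with
    | zero => exact h1
    | succ j ih =>
      have h2 : |e j| ≤ r⁻¹ * |e (j + 1)| := by
        rw [inv_mul_eq_div, le_div_iff₀ (by linarith)]
        linarith
      have h3 : (r + r⁻¹) * |e (j + 1)| - |e j| ≤ |e (j + 2)| := by
        have h4 := abs_sub_abs_le_abs_sub ((r + r⁻¹) * e (j + 1)) (e j)
        rw [abs_mul, abs_of_pos (show 0 < r + r⁻¹ by positivity), ← hrec] at h4
        exact h4
      linarith
  have hpow : ∀ j, r ^ j * |e 0| ≤ |e j| := fun j => by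
    induction j with
    | zero => simp
    | succ j ih =>
      rw [pow_succ, mul_comm _ r, mul_assoc]
      exact (mul_le_mul_of_nonneg_left ih (by linarith)).trans (hstep j)
  by_contra hne
  have hpos : 0 < |e 0| := abs_pos.2 hne
  obtain ⟨j, hj⟩ := pow_unbounded_of_one_lt (C / |e 0|) (show 1 < r by linarith)
  rw [div_lt_iff₀ hpos] at hj
  linarith [hpow j, hb j]

theorem plMean_recursion :
    plMean p (chebyU 2) = (edgeSq p - 1) * plMean p (chebyU 0) - ((p : ℝ) + 1) ∧
      plMean p (chebyU 3) = (edgeSq p - 2) * plMean p (chebyU 1) ∧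
      ∀ i, plMean p (chebyU (i + 4)) =
        (edgeSq p - 2) * plMean p (chebyU (i + 2)) - plMean p (chebyU i) := by
  have hlin : ∀ (a b d : ℝ) (i j l : ℕ),
      plMean p (fun t => a * chebyU i t + b * chebyU j t + d * chebyU l t) =
        a * plMean p (chebyU i) + b * plMean p (chebyU j) + d * plMean p (chebyU l) :=
    fun a b d i j l => by
      rw [plMean_add hp (by fun_prop) (by fun_prop), plMean_add hp (by fun_prop) (by fun_prop),
        plMean_const_mul hp, plMean_const_mul hp, plMean_const_mul hp]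
  refine ⟨?_, ?_, fun i => ?_⟩
  · have h := plMean_weight hp 0
    rw [if_pos rfl, show (fun t => (edgeSq p - t ^ 2) * chebyU 0 t) =
      fun t => edgeSq p * chebyU 0 t + (-1) * chebyU 2 t + (-1) * chebyU 0 t from funext fun t => by
        rw [chebyU_add_two, chebyU_one, chebyU_zero]; ring, hlin] at h
    linarith
  · have h := plMean_weight hp 1
    rw [if_neg one_ne_zero, show (fun t => (edgeSq p - t ^ 2) * chebyU 1 t) =
      fun t => edgeSq p * chebyU 1 t + (-1) * chebyU 3 t + (-2) * chebyU 1 t from funext fun t => by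
        rw [show (3 : ℕ) = 1 + 2 from rfl, chebyU_add_two, chebyU_add_two 0, chebyU_one,
          chebyU_zero]
        ring, hlin] at h
    linarith
  · have h := plMean_weight hp (i + 2)
    rw [if_neg (Nat.succ_ne_zero _), show (fun t => (edgeSq p - t ^ 2) * chebyU (i + 2) t) =
      fun t => (edgeSq p - 2) * chebyU (i + 2) t + (-1) * chebyU (i + 4) t + (-1) * chebyU i t
      from funext fun t => by
        rw [show i + 4 = (i + 2) + 2 from rfl, chebyU_add_two (i + 2),
          show i + 2 + 1 = (i + 1) + 2 from rfl, chebyU_add_two (i + 1), chebyU_add_two i]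
        ring, hlin] at h
    linarith

/-- **The means of the Chebyshev polynomials.** -/
theorem plMean_chebyU (i : ℕ) :
    plMean p (chebyU i) = if Even i then ((Real.sqrt p)⁻¹) ^ i else 0 := by
  obtain ⟨h2, h3, h4⟩ := plMean_recursion hp
  have hr : (2 : ℝ) ≤ p := by exact_mod_cast hp
  have hp0 : (0 : ℝ) < p := by linarith
  set W := 2 * (((p : ℝ) + 1) / (edgeSq p - 4))
  have hed : edgeSq p - 2 = (p : ℝ) + (p : ℝ)⁻¹ := by rw [edgeSq]; ring
  set e : ℕ → ℝ := fun j => plMean p (chebyU (2 * j)) - ((p : ℝ)⁻¹) ^ j with he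
  set o : ℕ → ℝ := fun j => plMean p (chebyU (2 * j + 1)) with ho
  have hinv : (p : ℝ)⁻¹ ≤ 1 := inv_le_one_of_one_le₀ (by linarith)
  have hebd : ∀ j, |e j| ≤ W + 1 := fun j => (abs_sub _ _).trans (add_le_add
    (abs_plMean_chebyU_le hp _) (by
      rw [abs_of_nonneg (by positivity)]
      exact pow_le_one₀ (by positivity) hinv))
  have hobd : ∀ j, |o j| ≤ W + 1 := fun j =>
    (abs_plMean_chebyU_le hp _).trans (le_add_of_nonneg_right zero_le_one)
  have erec : ∀ j, e (j + 2) = ((p : ℝ) + (p : ℝ)⁻¹) * e (j + 1) - e j := fun j => by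
    simp only [he]
    rw [show 2 * (j + 2) = 2 * j + 4 by ring, h4, hed, show 2 * (j + 1) = 2 * j + 2 by ring,
      pow_succ _ (j + 1), pow_succ _ j]
    field_simp
    ring
  have orec : ∀ j, o (j + 2) = ((p : ℝ) + (p : ℝ)⁻¹) * o (j + 1) - o j := fun j => by
    simp only [ho]
    rw [show 2 * (j + 2) + 1 = (2 * j + 1) + 4 by ring, h4, hed,
      show 2 * (j + 1) + 1 = 2 * j + 1 + 2 by ring]
  have e1 : e 1 = ((p : ℝ) + (p : ℝ)⁻¹ + 1) * e 0 := by
    simp only [he, mul_one, mul_zero, pow_zero, pow_one]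
    rw [h2, edgeSq]
    ring
  have o1 : o 1 = ((p : ℝ) + (p : ℝ)⁻¹) * o 0 := by
    simp only [ho, mul_one, mul_zero, zero_add, Nat.reduceAdd]
    rw [h3, hed]
  have hpi : (0 : ℝ) < (p : ℝ)⁻¹ := by positivity
  have e0 : e 0 = 0 := eq_zero_of_growth hr (by
    rw [e1, abs_mul, abs_of_pos (by positivity : (0 : ℝ) < (p : ℝ) + (p : ℝ)⁻¹ + 1)]
    exact mul_le_mul_of_nonneg_right (by linarith) (abs_nonneg _)) erec hebd
  have o0 : o 0 = 0 := eq_zero_of_growth hr (by
    rw [o1, abs_mul, abs_of_pos (by positivity : (0 : ℝ) < (p : ℝ) + (p : ℝ)⁻¹)]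
    exact mul_le_mul_of_nonneg_right (by linarith) (abs_nonneg _)) orec hobd
  have hall : ∀ j, e j = 0 ∧ o j = 0 := fun j => by
    induction j using Nat.strong_induction_on with
    | _ j ih =>
      match j with
      | 0 => exact ⟨e0, o0⟩
      | 1 => exact ⟨by rw [e1, e0, mul_zero], by rw [o1, o0, mul_zero]⟩
      | j + 2 =>
        rw [erec, orec, (ih j (by omega)).1, (ih j (by omega)).2, (ih (j + 1) (by omega)).1,
          (ih (j + 1) (by omega)).2]
        simp
  rcases Nat.even_or_odd' i with ⟨j, rfl | rfl⟩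
  · have := (hall j).1
    simp only [he, sub_eq_zero] at this
    rw [if_pos (even_two_mul j), this, pow_mul, inv_pow, inv_pow, Real.sq_sqrt hp0.le]
    simp [inv_pow]
  · rw [if_neg (Nat.not_even_two_mul_add_one j)]
    exact (hall j).2

end FA.QuaternionTrace

end
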