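import Fermat.Agent.QuaternionTrace.Classes
import Fermat.Agent.QuaternionTrace.Plancherel
import Fermat.Agent.VerticalSatoTate.Main

/-!
# Serre's equidistribution as the weight grows

The trace of `T (p ^ j)` divided by `p ^ (j/2)` is the sum of `U j` at the eigenvalues of
`T p / √p`, and by the trace formula it is the dimension times `p ^ (-j/2)` for even `j`, zero for
odd `j`, up to a bounded error.
-/

set_option autoImplicit false
set_option linter.unusedSectionVars false
set_option linter.style.haveILetI false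

noncomputable section

open Set Filter Topology
open UpperHalfPlane hiding I
open FA.CocompactForms FA.CocompactDegree FA.QuaternionHecke
open scoped MatrixGroups Real

namespace FA.QuaternionTrace

variable {p : ℕ+} (hp : (p : ℕ).Prime) (hp5 : 5 ≤ (p : ℕ))

section Eigen

variable {k : ℤ} {ι : Type*} [Fintype ι] (b : Module.Basis ι ℂ (forms orderUnits k)) {c : ι → ℝ}
  (hb : ∀ i, hecke k p (b i) = (c i : ℂ) • b i)

include hp hp5 hb in
theorem hecke_pow_eigen (i : ι) (j : ℕ) : hecke k (p ^ j) (b i) =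
    ((Real.sqrt (p : ℕ) ^ j * chebyU j (c i / Real.sqrt (p : ℕ)) : ℝ) : ℂ) • b i := by
  haveI : Fact (p : ℕ).Prime := ⟨hp⟩
  set s := Real.sqrt (p : ℕ) with hsdef
  have hs : s ≠ 0 := (Real.sqrt_pos.2 (Nat.cast_pos.2 hp.pos)).ne'
  have hsq : s ^ 2 = ((p : ℕ) : ℝ) := Real.sq_sqrt (Nat.cast_nonneg _)
  induction j using Nat.strong_induction_on with
  | _ j ih =>
    match j with
    | 0 => simp [hecke_one, chebyU_zero]
    | 1 =>
      rw [pow_one, hb, chebyU_one, pow_one, mul_div_cancel₀ _ hs]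
    | j + 2 =>
      have e := LinearMap.congr_fun (hecke_prime_pow k hp j) (b i)
      rw [Module.End.mul_apply, ih (j + 1) (by omega), map_smul, hb, smul_smul,
        LinearMap.add_apply, LinearMap.smul_apply, ih j (by omega), smul_smul,
        card_reps_prime _ hp5] at e
      rw [eq_sub_iff_add_eq.2 e.symm, ← sub_smul]
      congr 1
      rw [chebyU_add_two]
      push_cast
      rw [← Complex.ofReal_natCast, ← hsq, pow_succ _ (j + 1), pow_succ _ j]
      push_cast
      have hsC : (s : ℂ) ≠ 0 := Complex.ofReal_ne_zero.2 hs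
      field_simp
      ring

include hp hp5 hb in
theorem trace_pow (j : ℕ) : LinearMap.trace ℂ (forms orderUnits k) (hecke k (p ^ j)) =
    ((Real.sqrt (p : ℕ) ^ j * ∑ i, chebyU j (c i / Real.sqrt (p : ℕ)) : ℝ) : ℂ) := by
  classical
  rw [LinearMap.trace_eq_matrix_trace ℂ b, Matrix.trace, Finset.mul_sum]
  push_cast
  refine Finset.sum_congr rfl fun i _ => ?_
  rw [Matrix.diag_apply, LinearMap.toMatrix_apply, hecke_pow_eigen hp hp5 b hb i j, map_smul,
    Module.Basis.repr_self]
  simp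

include hp hp5 hb in
theorem abs_eigen_le (i : ι) :
    |c i / Real.sqrt (p : ℕ)| ≤ (((p : ℕ) : ℝ) + 1) / Real.sqrt (p : ℕ) := by
  haveI : Fact (p : ℕ).Prime := ⟨hp⟩
  haveI : NeZero (p : ℕ) := ⟨hp.ne_zero⟩
  have h := norm_eigenvalue_le (b i).2 (fun h0 => b.ne_zero i (Subtype.ext h0))
    (congrArg Subtype.val (hb i))
  rw [Complex.norm_real, Real.norm_eq_abs, card_reps_prime _ hp5, Nat.cast_succ] at h
  rw [abs_div, abs_of_nonneg (Real.sqrt_nonneg _)]
  exact div_le_div_of_nonneg_right h (Real.sqrt_nonneg _)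

end Eigen

theorem finrank_bound : ∃ B : ℝ, ∀ m : ℕ, 2 ≤ m →
    |(Module.finrank ℂ (forms orderUnits ((2 * m : ℕ) : ℤ)) : ℝ) - (2 * (m : ℝ) - 1) / 6| ≤ B := by
  obtain ⟨B, hB⟩ := exists_bound 1
  refine ⟨B, fun m hm => ?_⟩
  have h := hB m hm
  haveI := finiteDimensional_forms ((2 * m : ℕ) : ℤ)
  rw [hecke_one, LinearMap.trace_one, if_pos (by simp)] at h
  rw [← Real.norm_eq_abs, ← Complex.norm_real]
  refine le_of_eq_of_le ?_ h
  push_cast
  rfl

theorem isSquare_prime_pow {q : ℕ} (hq : q.Prime) (j : ℕ) : IsSquare (q ^ j) ↔ Even j := by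
  refine ⟨fun ⟨r, hr⟩ => ?_, fun h => h.isSquare_pow q⟩
  obtain ⟨i, -, rfl⟩ := (Nat.dvd_prime_pow hq).1 (Dvd.intro r hr.symm)
  rw [← pow_add] at hr
  exact ⟨i, Nat.pow_right_injective hq.two_le hr⟩

theorem tendsto_main : Tendsto (fun m : ℕ => (2 * (m : ℝ) - 1) / 6) atTop atTop :=
  Tendsto.atTop_div_const (by norm_num) (tendsto_atTop_add_const_right _ (-1)
    (tendsto_natCast_atTop_atTop.const_mul_atTop two_pos))

theorem tendsto_div_main {u : ℕ → ℝ} {a B : ℝ}
    (h : ∀ m : ℕ, 2 ≤ m → |u m - a * ((2 * (m : ℝ) - 1) / 6)| ≤ B) :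
    Tendsto (fun m => u m / ((2 * (m : ℝ) - 1) / 6)) atTop (𝓝 a) := by
  have h0 : Tendsto (fun m : ℕ => B / ((2 * (m : ℝ) - 1) / 6)) atTop (𝓝 0) :=
    tendsto_const_nhds.div_atTop tendsto_main
  rw [← tendsto_sub_nhds_zero_iff]
  refine squeeze_zero_norm' ?_ h0
  filter_upwards [eventually_ge_atTop 2] with m hm
  have hm2 : (2 : ℝ) ≤ m := by exact_mod_cast hm
  have hpos : (0 : ℝ) < (2 * (m : ℝ) - 1) / 6 := by linarith
  rw [Real.norm_eq_abs, div_sub' hpos.ne', abs_div, abs_of_pos hpos, mul_comm _ a]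
  exact div_le_div_of_nonneg_right (h m hm) hpos.le

/-- The eigenvalues of `T p` in each weight, with a basis of eigenforms. -/
structure EigenData (p : ℕ+) where
  /-- The basis. -/
  basis : ∀ m : ℕ, Module.Basis (Fin (Module.finrank ℂ (forms orderUnits ((2 * m : ℕ) : ℤ)))) ℂ
    (forms orderUnits ((2 * m : ℕ) : ℤ))
  /-- The eigenvalues. -/
  val : ∀ m : ℕ, Fin (Module.finrank ℂ (forms orderUnits ((2 * m : ℕ) : ℤ))) → ℝ
  eigen : ∀ m i, hecke ((2 * m : ℕ) : ℤ) p (basis m i) = (val m i : ℂ) • basis m i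

theorem nonempty_eigenData (p : ℕ+) : Nonempty (EigenData p) := by
  choose b c hc using fun m : ℕ => exists_eigenbasis (2 * m)
  exact ⟨⟨b, fun m i => c m i p, fun m i => hc m i p⟩⟩

/-- The average over the eigenvalues. -/
def eigenMean (E : EigenData p) (φ : ℝ → ℝ) (m : ℕ) : ℝ :=
  (∑ i, φ (E.val m i / Real.sqrt (p : ℕ))) /
    (Module.finrank ℂ (forms orderUnits ((2 * m : ℕ) : ℤ)) : ℝ)

include hp hp5 in
/-- **The moments.** -/
theorem tendsto_chebyU (E : EigenData p) (j : ℕ) :
    Tendsto (eigenMean E (chebyU j)) atTop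
      (𝓝 (if Even j then ((Real.sqrt (p : ℕ))⁻¹) ^ j else 0)) := by
  set s := Real.sqrt (p : ℕ) with hsdef
  have hs : 0 < s := Real.sqrt_pos.2 (Nat.cast_pos.2 hp.pos)
  have hsne : (s : ℂ) ≠ 0 := Complex.ofReal_ne_zero.2 hs.ne'
  obtain ⟨B0, hB0⟩ := finrank_bound
  obtain ⟨B, hB⟩ := exists_bound (p ^ j)
  have hu : ∀ m : ℕ, 2 ≤ m → |(∑ i, chebyU j (E.val m i / s)) -
      (if Even j then (s⁻¹) ^ j else 0) * ((2 * (m : ℝ) - 1) / 6)| ≤ B / s ^ j := fun m hm => by
    have h := hB m hm
    rw [trace_pow hp hp5 (E.basis m) (E.eigen m), PNat.pow_coe, ← hsdef] at h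
    obtain ⟨S, hS⟩ : ∃ S, ∑ i, chebyU j (E.val m i / s) = S := ⟨_, rfl⟩
    rw [hS] at h ⊢
    rw [le_div_iff₀ (pow_pos hs j), ← abs_of_pos (pow_pos hs j), ← abs_mul, ← Real.norm_eq_abs,
      ← Complex.norm_real]
    refine le_of_eq_of_le (congrArg norm ?_) h
    by_cases hj : Even j
    · rw [if_pos hj, if_pos ((isSquare_prime_pow hp j).2 hj)]
      push_cast
      have hone : (s : ℂ) ^ j * ((s : ℂ)⁻¹) ^ j = 1 := by
        rw [← mul_pow, mul_inv_cancel₀ hsne, one_pow]
      linear_combination (-(2 * (m : ℂ) - 1) / 6) * hone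
    · rw [if_neg hj, if_neg fun h => hj ((isSquare_prime_pow hp j).1 h)]
      push_cast
      ring
  have hd := tendsto_div_main (a := 1)
    (u := fun m => (Module.finrank ℂ (forms orderUnits ((2 * m : ℕ) : ℤ)) : ℝ))
    fun m hm => by simpa using hB0 m hm
  have h := (tendsto_div_main hu).div hd one_ne_zero
  rw [div_one] at h
  refine h.congr' ?_
  filter_upwards [eventually_ge_atTop 2] with m hm
  have hm2 : (2 : ℝ) ≤ m := by exact_mod_cast hm
  exact div_div_div_cancel_right₀ (by linarith) _ _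

theorem eigenMean_add (E : EigenData p) (φ χ : ℝ → ℝ) (m : ℕ) :
    eigenMean E (fun t => φ t + χ t) m = eigenMean E φ m + eigenMean E χ m := by
  simp [eigenMean, Finset.sum_add_distrib, add_div]

theorem eigenMean_const_mul (E : EigenData p) (a : ℝ) (φ : ℝ → ℝ) (m : ℕ) :
    eigenMean E (fun t => a * φ t) m = a * eigenMean E φ m := by
  simp [eigenMean, ← Finset.mul_sum, mul_div_assoc]

include hp hp5 in
theorem tendsto_pow_mul (E : EigenData p) (n : ℕ) : ∀ j, Tendsto
    (eigenMean E fun t => t ^ n * chebyU j t) atTop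
      (𝓝 (plMean (p : ℕ) fun t => t ^ n * chebyU j t)) := by
  have hp2 : 2 ≤ (p : ℕ) := hp.two_le
  induction n with
  | zero =>
    intro j
    simp only [pow_zero, one_mul]
    rw [plMean_chebyU hp2]
    exact tendsto_chebyU hp hp5 E j
  | succ n ih =>
    intro j
    match j with
    | 0 =>
      have e : (fun t : ℝ => t ^ (n + 1) * chebyU 0 t) = fun t => t ^ n * chebyU 1 t := funext
        fun t => by rw [chebyU_zero, chebyU_one]; ring
      rw [e]
      exact ih 1
    | j + 1 =>
      have e : (fun t : ℝ => t ^ (n + 1) * chebyU (j + 1) t) =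
          fun t => t ^ n * chebyU (j + 2) t + t ^ n * chebyU j t := funext fun t => by
        rw [chebyU_add_two]; ring
      rw [e, plMean_add hp2 (by fun_prop) (by fun_prop)]
      exact ((ih (j + 2)).add (ih j)).congr fun m => (eigenMean_add E _ _ m).symm

include hp hp5 in
theorem tendsto_eval (E : EigenData p) (q : Polynomial ℝ) :
    Tendsto (eigenMean E fun t => q.eval t) atTop (𝓝 (plMean (p : ℕ) fun t => q.eval t)) := by
  have hp2 : 2 ≤ (p : ℕ) := hp.two_le
  induction q using Polynomial.induction_on' with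
  | add q r hq hr =>
    simp only [Polynomial.eval_add]
    rw [plMean_add hp2 q.continuous r.continuous]
    exact (hq.add hr).congr fun m => (eigenMean_add E _ _ m).symm
  | monomial n a =>
    simp only [Polynomial.eval_monomial]
    rw [plMean_const_mul hp2]
    have h := (tendsto_pow_mul hp hp5 E n 0).const_mul a
    simp only [chebyU_zero, mul_one] at h
    exact h.congr fun m => (eigenMean_const_mul E _ _ m).symm

theorem plMean_one (hp2 : 2 ≤ (p : ℕ)) : plMean (p : ℕ) (fun _ => 1) = 1 := by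
  rw [show (fun _ : ℝ => (1 : ℝ)) = chebyU 0 from funext fun t => (chebyU_zero t).symm,
    plMean_chebyU hp2, if_pos Even.zero, pow_zero]

include hp hp5 in
/-- **Serre's equidistribution.** -/
theorem tendsto_eigenMean (E : EigenData p) {φ : ℝ → ℝ} (hφ : Continuous φ) :
    Tendsto (eigenMean E φ) atTop (𝓝 (plMean (p : ℕ) φ)) := by
  have hp2 : 2 ≤ (p : ℕ) := hp.two_le
  set A := (((p : ℕ) : ℝ) + 1) / Real.sqrt (p : ℕ)
  have hA2 : 2 ≤ A := by
    rw [le_div_iff₀ (Real.sqrt_pos.2 (Nat.cast_pos.2 hp.pos))]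
    nlinarith [Real.sq_sqrt (Nat.cast_nonneg (α := ℝ) (p : ℕ)),
      sq_nonneg (Real.sqrt (p : ℕ) - 1)]
  rw [Metric.tendsto_nhds]
  intro ε hε
  obtain ⟨q, hq⟩ := exists_polynomial_near_of_continuousOn (-A) A φ hφ.continuousOn (ε / 4)
    (by positivity)
  have hL : |plMean (p : ℕ) φ - plMean (p : ℕ) fun t => q.eval t| ≤ ε / 4 := by
    have hqc : Continuous fun t => q.eval t := q.continuous
    have h1 := plMean_mono hp2 (χ := fun t => q.eval t + ε / 4) hφ (by fun_prop)
      fun t ht => by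
        show φ t ≤ q.eval t + ε / 4
        linarith [(abs_lt.1 (hq t ⟨by linarith [ht.1], by linarith [ht.2]⟩)).1]
    have h2 := plMean_mono hp2 (χ := fun t => φ t + ε / 4) hqc (by fun_prop)
      fun t ht => by
        show q.eval t ≤ φ t + ε / 4
        linarith [(abs_lt.1 (hq t ⟨by linarith [ht.1], by linarith [ht.2]⟩)).2]
    have hc : plMean (p : ℕ) (fun _ => ε / 4) = ε / 4 := by
      have := plMean_const_mul hp2 (ε / 4) fun _ => 1
      simp only [mul_one] at this
      rw [this, plMean_one hp2, mul_one]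
    rw [plMean_add hp2 hqc continuous_const, hc] at h1
    rw [plMean_add hp2 hφ continuous_const, hc] at h2
    rw [abs_le]
    constructor <;> linarith
  filter_upwards [Metric.tendsto_nhds.1 (tendsto_eval hp hp5 E q) (ε / 4) (by positivity)]
    with m hm
  have hE : |eigenMean E φ m - eigenMean E (fun t => q.eval t) m| ≤ ε / 4 := by
    simp only [eigenMean, ← sub_div, ← Finset.sum_sub_distrib]
    rw [abs_div, Nat.abs_cast]
    refine div_le_of_le_mul₀ (Nat.cast_nonneg _) (by positivity)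
      ((Finset.abs_sum_le_sum_abs _ _).trans ((Finset.sum_le_sum (g := fun _ => ε / 4)
        fun i _ => ?_).trans (le_of_eq (by simp [mul_comm]))))
    rw [abs_sub_comm]
    exact (hq _ (abs_le.1 (abs_eigen_le hp hp5 (E.basis m) (E.eigen m) i))).le
  rw [Real.dist_eq] at hm ⊢
  have := abs_sub_le (eigenMean E φ m) (eigenMean E (fun t => q.eval t) m) (plMean (p : ℕ) φ)
  have := abs_sub_le (eigenMean E (fun t => q.eval t) m) (plMean (p : ℕ) fun t => q.eval t)
    (plMean (p : ℕ) φ)
  rw [abs_sub_comm (plMean (p : ℕ) fun t => q.eval t) (plMean (p : ℕ) φ)] at this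
  linarith

include hp hp5 in
theorem exists_eigen_mem (E : EigenData p) {a b : ℝ} (ha : -2 ≤ a) (hab : a < b) (hb : b ≤ 2) :
    ∀ᶠ m : ℕ in atTop, ∃ i, E.val m i / Real.sqrt (p : ℕ) ∈ Ioo a b := by
  have hp2 : 2 ≤ (p : ℕ) := hp.two_le
  set φ : ℝ → ℝ := fun t => max 0 (min (t - a) (b - t)) with hφdef
  have hφ : Continuous φ := by fun_prop
  have hpos : 0 < plMean (p : ℕ) φ := by
    rw [plMean_eq hp2]
    refine VerticalSatoTate.semiMean_pos (hφ.mul (continuous_plAux hp2))
      (fun t => mul_nonneg (le_max_left _ _) (plAux_pos hp2 t).le) (c := (a + b) / 2)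
      ⟨by linarith, by linarith⟩ (mul_pos (lt_max_of_lt_right (lt_min ?_ ?_)) (plAux_pos hp2 _))
    · linarith
    · linarith
  filter_upwards [(tendsto_eigenMean hp hp5 E hφ).eventually (lt_mem_nhds hpos)] with m hm
  by_contra hne
  push Not at hne
  refine hm.ne' ?_
  rw [eigenMean, Finset.sum_eq_zero, zero_div]
  intro i _
  simp only [hφdef]
  refine max_eq_left ?_
  have := hne i
  simp only [mem_Ioo, not_and, not_lt] at this
  rcases le_or_gt (E.val m i / Real.sqrt (p : ℕ)) a with h | h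
  · exact (min_le_left _ _).trans (by linarith)
  · exact (min_le_right _ _).trans (by linarith [this h])

include hp hp5 in
theorem many_eigenvalues (E : EigenData p) (r : ℕ) :
    ∀ᶠ m : ℕ in atTop, r ≤ (range fun i => E.val m i / Real.sqrt (p : ℕ)).ncard := by
  have h := fun l : Fin r => exists_eigen_mem hp hp5 E (VerticalSatoTate.interval_bounds l).1
    (VerticalSatoTate.interval_bounds l).2.1 (VerticalSatoTate.interval_bounds l).2.2
  filter_upwards [eventually_all.2 h] with m hm
  refine VerticalSatoTate.le_ncard_of_mem_interval (finite_range _) fun l => ?_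
  obtain ⟨i, hi⟩ := hm l
  exact ⟨_, hi, i, rfl⟩

end FA.QuaternionTrace

end
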