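import Fermat.Agent.CocompactTrace.Hyperbolic
import Fermat.Agent.QuaternionHecke.Petersson
import Mathlib.Analysis.InnerProductSpace.Trace

/-!
# The trace of a Hecke operator as a sum over the elements of its norm

The trace is the sum of the diagonal Petersson products over an orthonormal basis, and the kernel
translated by a representative `r` has the terms of the elements `γ r`.
-/

set_option autoImplicit false
set_option linter.unusedSectionVars false
set_option linter.style.haveILetI false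

noncomputable section

open MeasureTheory Set Filter Topology Complex
open UpperHalfPlane hiding I
open FA.CocompactForms FA.CocompactFunctions FA.CocompactDegree FA.CocompactGaussBonnet
open FA.CocompactTrace FA.QuaternionHecke
open scoped MatrixGroups Manifold Real ComplexConjugate

namespace FA.QuaternionTrace

theorem kerFun_translate {Γ : Subgroup SL(2, ℝ)} [DiscreteTopology Γ] (k : ℕ) (r : SL(2, ℝ))
    (z : ℍ) :
    (z.im : ℂ) ^ k * (jac r z ^ (-(k : ℤ)) * kerFun Γ k z (r • z)) =
      ((k : ℂ) - 1) / (4 * π) * ∑' γ : Γ, qFun ((γ : SL(2, ℝ)) * r) z ^ k := by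
  have hs : (Real.sqrt z.im : ℂ) ≠ 0 := ofReal_ne_zero.2 (Real.sqrt_ne_zero'.2 z.im_pos)
  have hy : (z.im : ℂ) = (Real.sqrt z.im : ℂ) * Real.sqrt z.im := by
    rw [← ofReal_mul, Real.mul_self_sqrt z.im_pos.le]
  rw [kerFun, poincareAt, hy, zpow_neg, zpow_natCast, ← tsum_mul_left, ← tsum_mul_left,
    ← tsum_mul_left, ← tsum_mul_left]
  refine tsum_congr fun γ => ?_
  obtain ⟨a, ha⟩ : ∃ a : SL(2, ℝ), z.toSL2R⁻¹ * (γ : SL(2, ℝ)) = a := ⟨_, rfl⟩
  have e1 := seed_smul a r z
  have e2 := seed_smul (a * r) z.toSL2R UpperHalfPlane.I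
  rw [toSL2R_smul_I, UpperHalfPlane.coe_I, jac_toSL2R, ofReal_inv] at e2
  have hne := seed_ne_zero a (r • z).im_pos
  have hne2 := seed_ne_zero (a * r) z.im_pos
  have hj := jac_ne_zero r z.im_ne_zero
  rw [ha, show qFun ((γ : SL(2, ℝ)) * r) z = 2 * I / seed (a * r * z.toSL2R) I by
    rw [qFun, ← ha]; simp only [mul_assoc], ← e2, ← e1]
  simp only [kerConst, div_pow, mul_pow, inv_pow]
  field_simp

variable {Γ : Subgroup SL(2, ℝ)} [DiscreteTopology Γ] [CompactSpace (SL(2, ℝ) ⧸ Γ)] {ψ : ℂ → ℝ}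
  {G : Finset Γ} {k : ℕ}

/-- **An orthonormal basis computes traces and the kernel.** -/
theorem exists_basis_trace (h : IsPartition Γ ψ G) (hk : 4 ≤ k) :
    ∃ e : Fin (Module.finrank ℂ (forms Γ (k : ℤ))) → forms Γ (k : ℤ),
      (∀ T : Module.End ℂ (forms Γ (k : ℤ)), LinearMap.trace ℂ (forms Γ (k : ℤ)) T =
        ∑ i, petInner ψ k (e i : ℍ → ℂ) (T (e i) : ℍ → ℂ)) ∧
        ∀ p w : ℍ, kerFun Γ k p w = ∑ i, conj ((e i).1 p) * (e i).1 w := by
  obtain ⟨C, hC⟩ := exists_finrank_le Γ
  haveI : FiniteDimensional ℂ (forms Γ (k : ℤ)) := (hC (k : ℤ)).1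
  letI core : InnerProductSpace.Core ℂ (forms Γ (k : ℤ)) :=
    { inner := fun f g => petInner ψ k f g
      conj_inner_symm := fun f g => petInner_symm ψ k f g
      re_inner_nonneg := fun f => (petInner_self h f.2.1).1
      add_left := fun f g u => by
        show petInner ψ k _ _ = petInner ψ k _ _ + petInner ψ k _ _
        rw [petInner, petInner, petInner, ← integral_add (integrable_petInner h f.2.1 u.2.1)
          (integrable_petInner h g.2.1 u.2.1)]
        refine integral_congr_ae (.of_forall fun z => ?_)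
        simp [Complex.real_smul]
        ring
      smul_left := fun f g r => by
        show petInner ψ k _ _ = conj r * petInner ψ k _ _
        rw [petInner, petInner, ← integral_const_mul]
        refine integral_congr_ae (.of_forall fun z => ?_)
        simp [Complex.real_smul]
        ring
      definite := fun f h0 => Subtype.ext ((petInner_self h f.2.1).2 h0) }
  letI : NormedAddCommGroup (forms Γ (k : ℤ)) := core.toNormedAddCommGroup
  letI : InnerProductSpace ℂ (forms Γ (k : ℤ)) := InnerProductSpace.ofCore core.toCore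
  set e := stdOrthonormalBasis ℂ (forms Γ (k : ℤ))
  refine ⟨fun i => e i, fun T => ?_, fun p w => ?_⟩
  · exact LinearMap.trace_eq_sum_inner T e
  · set B : forms Γ (k : ℤ) := ⟨kerFun Γ k p, isForm_kerFun (by omega) p⟩
    have hcoef : ∀ i, inner ℂ (e i) B = conj ((e i).1 p) := fun i => by
      rw [← inner_conj_symm]
      exact congrArg conj (petInner_kerFun h hk (e i).2 p)
    have hsum := congrArg (fun v : forms Γ (k : ℤ) => v.1 w) (e.sum_repr' B)
    simp only [Submodule.coe_sum, Finset.sum_apply, Submodule.coe_smul, Pi.smul_apply,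
      smul_eq_mul, hcoef] at hsum
    exact hsum.symm

variable {ψ : ℂ → ℝ} {G : Finset orderUnits}

theorem trace_eq_integral (h : IsPartition orderUnits ψ G) (hk : 4 ≤ k) (n : ℕ+) :
    LinearMap.trace ℂ (forms orderUnits (k : ℤ)) (hecke (k : ℤ) n) =
      ((k : ℂ) - 1) / (4 * π) * ∫ z : ℍ, ψ z • ∑ r ∈ reps n,
        ∑' γ : orderUnits, qFun ((γ : SL(2, ℝ)) * r) z ^ k := by
  obtain ⟨e, htr, hrep⟩ := exists_basis_trace h hk
  rw [htr, ← integral_const_mul]
  simp only [petInner]
  rw [← integral_finsetSum _ fun i _ =>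
    integrable_petInner h (e i).2.1 (hecke (k : ℤ) n (e i)).2.1]
  refine integral_congr_ae (.of_forall fun z => ?_)
  simp only [coe_hecke, heckeFun_apply, Finset.sum_apply, slash_apply, Complex.real_smul,
    ofReal_mul, ofReal_pow, Finset.mul_sum]
  rw [Finset.sum_comm]
  refine Finset.sum_congr rfl fun r _ => ?_
  rw [mul_left_comm, ← kerFun_translate, hrep, Finset.mul_sum, Finset.mul_sum, Finset.mul_sum]
  exact Finset.sum_congr rfl fun i _ => by ring

theorem summable_qFun (r : SL(2, ℝ)) (z : ℍ) (hk : 3 ≤ k) :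
    Summable fun γ : orderUnits => qFun ((γ : SL(2, ℝ)) * r) z ^ k := by
  refine Summable.of_norm_bounded ((summable_translate orderUnits z.toSL2R⁻¹ (r * z.toSL2R)
    ).mul_left (2 ^ 3)) fun γ => ?_
  have e : z.toSL2R⁻¹ * ((γ : SL(2, ℝ)) * r) * z.toSL2R =
      z.toSL2R⁻¹ * (γ : SL(2, ℝ)) * (r * z.toSL2R) := by group
  have hn := two_le_normSqSL (z.toSL2R⁻¹ * (γ : SL(2, ℝ)) * (r * z.toSL2R))
  rw [norm_pow, norm_qFun, e, ← mul_pow]
  refine (pow_le_pow_of_le_one (by positivity) ?_ hk).trans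
    (pow_le_pow_left₀ (by positivity) ?_ 3)
  · rw [div_le_one (Real.sqrt_pos.2 (by linarith)), Real.le_sqrt zero_le_two (by linarith)]
    linarith
  · rw [← div_eq_mul_inv]
    exact div_le_div_of_nonneg_left zero_le_two (Real.sqrt_pos.2 (by linarith))
      (Real.sqrt_le_sqrt (by linarith))

theorem bijective_units_mul (n : ℕ) [NeZero n] :
    Function.Bijective fun x : ↥(reps n) × orderUnits =>
      (⟨(x.2 : SL(2, ℝ)) * (x.1 : SL(2, ℝ)),
        units_mul_mem x.2.2 ((isTransversal_reps n).1 _ x.1.2)⟩ : normSet n) := by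
  refine ⟨fun x y hxy => ?_, fun g => ?_⟩
  · have h' : (x.2 : SL(2, ℝ)) * (x.1 : SL(2, ℝ)) = (y.2 : SL(2, ℝ)) * (y.1 : SL(2, ℝ)) :=
      congrArg Subtype.val hxy
    have h1 : (x.1 : SL(2, ℝ)) = y.1 := by
      refine ((isTransversal_reps n).2 _ (units_mul_mem x.2.2
        ((isTransversal_reps n).1 _ x.1.2))).unique ⟨x.1.2, ?_⟩ ⟨y.1.2, ?_⟩
      · rw [mul_inv_cancel_right]
        exact x.2.2
      · rw [h', mul_inv_cancel_right]
        exact y.2.2
    rw [h1] at h'
    exact Prod.ext (Subtype.ext h1) (Subtype.ext (mul_right_cancel h'))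
  · obtain ⟨r, ⟨hr, hgr⟩, -⟩ := (isTransversal_reps n).2 g g.2
    exact ⟨⟨⟨r, hr⟩, ⟨_, hgr⟩⟩, Subtype.ext (inv_mul_cancel_right _ _)⟩

theorem summable_norm_normSet (h : IsPartition orderUnits ψ G) (hk : 3 ≤ k) (n : ℕ) [NeZero n] :
    Summable fun g : normSet n => ∫ z : ℍ, ‖ψ z • qFun (g : SL(2, ℝ)) z ^ k‖ := by
  rw [← (Equiv.ofBijective _ (bijective_units_mul n)).summable_iff]
  refine (summable_prod_of_nonneg fun x => integral_nonneg fun z => norm_nonneg _).2
    ⟨fun r => ?_, Summable.of_finite⟩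
  exact summable_norm_translate h hk (r : SL(2, ℝ))

theorem summable_normSet (h : IsPartition orderUnits ψ G) (hk : 3 ≤ k) (n : ℕ) [NeZero n] :
    Summable fun g : normSet n => orbAt ψ k (g : SL(2, ℝ)) :=
  Summable.of_norm_bounded (summable_norm_normSet h hk n) fun _ => norm_integral_le_integral_norm _

/-- **The trace as a sum over the elements of norm `n`.** -/
theorem trace_eq_tsum (h : IsPartition orderUnits ψ G) (hk : 4 ≤ k) (n : ℕ+) :
    LinearMap.trace ℂ (forms orderUnits (k : ℤ)) (hecke (k : ℤ) n) =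
      ((k : ℂ) - 1) / (4 * π) * ∑' g : normSet n, orbAt ψ k (g : SL(2, ℝ)) := by
  haveI : NeZero (n : ℕ) := ⟨n.ne_zero⟩
  haveI := countable_group orderUnits
  rw [trace_eq_integral h hk n]
  congr 1
  set F : ↥(reps n) × orderUnits → ℍ → ℂ :=
    fun x z => ψ z • qFun ((x.2 : SL(2, ℝ)) * (x.1 : SL(2, ℝ))) z ^ k with hF
  have hN : Summable fun x => ∫ z : ℍ, ‖F x z‖ := by
    rw [hF]
    exact (summable_prod_of_nonneg fun x => integral_nonneg fun z => norm_nonneg _).2
      ⟨fun r => summable_norm_translate h (by omega) (r : SL(2, ℝ)), Summable.of_finite⟩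
  have hint : ∀ x, Integrable (F x) := fun x => by
    rw [hF]
    exact integrable_orbTerm h k _
  have hpt : ∀ z : ℍ,
      ψ z • ∑ r ∈ reps n, ∑' γ : orderUnits, qFun ((γ : SL(2, ℝ)) * r) z ^ k = ∑' x, F x z :=
    fun z => by
      have hs : Summable fun x => F x z := by
        simp only [hF]
        refine Summable.of_norm (f := fun x : ↥(reps n) × orderUnits =>
          ψ z • qFun ((x.2 : SL(2, ℝ)) * (x.1 : SL(2, ℝ))) z ^ k) ?_
        refine (summable_prod_of_nonneg fun x => norm_nonneg _).2 ⟨fun r => ?_, Summable.of_finite⟩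
        exact ((summable_qFun (r : SL(2, ℝ)) z (by omega)).const_smul (ψ z)).norm
      rw [hs.tsum_prod, tsum_fintype, ← Finset.sum_coe_sort (reps n), Finset.smul_sum]
      simp only [hF, Complex.real_smul, tsum_mul_left]
  refine Eq.trans ?_ ((Equiv.ofBijective _ (bijective_units_mul n)).tsum_eq
    fun g : normSet n => orbAt ψ k (g : SL(2, ℝ)))
  simp only [hpt]
  exact (integral_tsum_of_summable_integral_norm hint hN).symm

end FA.QuaternionTrace

end
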